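import Mathlib
import Fermat.Agent.FF.InertiaW
import Fermat.Agent.FF.Spec2
import Fermat.Agent.SQ.Descend.Inertia
import Fermat.Agent.SS.Top.Res

/-!
# Program TT (S33): `W = 𝔸^I` is UNRAMIFIED (prefix `ttun`)

Owner: helper19.  Namespace `Fermat.Agent.TT`.

`𝔸 : ValuationSubring ℚ̄` over the prime `p`, `I := 𝔸.inertiaSubgroupIn ℚ`, `W := ffiwRing 𝔸 = 𝔸^I`
(`= ffW 𝔸 I` by `rfl`).

* **`ttun_unr`** (UNR) : `𝔪_𝔸 ∩ W = p · W` : an `I`-fixed element of `𝔸` that is not a unit of `𝔸`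
  is `p · w'` with `w' ∈ W`;
* `ttun_div_mem`, `ttun_div_mem_W` : `w / p ∈ 𝔸`, `w / p ∈ W`;
* `ttun_unr_W` : the same for `w : ↥(ffW 𝔸 I)` in the spelling of `FF/Spec.lean`;
* `ttun_nonunits_iff` : for `w ∈ W`: `w ∈ 𝔸.nonunits ↔ ∃ w' ∈ W, w = p * w'`.

Proof: `w` lies in a finite normal `E/ℚ`, hence in the inertia field `E₀ = E ∩ ℚ̄^I`
(`ssgfE0 𝔸 E`), and `p` is a uniformiser of the valuation ring `𝔸 ∩ E₀` by main's
`sqdi_irreducible` ("the inertia field is unramified", Program Q).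
-/

set_option autoImplicit false
set_option linter.style.haveILetI false

noncomputable section

namespace Fermat.Agent.TT

open Fermat.Agent.FF Fermat.Agent.SQ Fermat.Agent.SS Fermat.Agent.S18
open scoped IntermediateField

local notation "Qb" => AlgebraicClosure ℚ

/-- in a valuation ring an irreducible element divides every non-unit. -/
theorem ttun_irreducible_dvd {K : Type*} [Field K] (V : ValuationSubring K) {π x : V}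
    (hπ : Irreducible π) (hx : ¬ IsUnit x) : π ∣ x := by
  rcases ValuationRing.dvd_total π x with h | h
  · exact h
  · obtain ⟨y, hy⟩ := h
    rcases hπ.isUnit_or_isUnit hy with h1 | h1
    · exact absurd h1 hx
    · obtain ⟨u, rfl⟩ := h1
      exact ⟨(↑u⁻¹ : V), by rw [hy, mul_assoc, Units.mul_inv, mul_one]⟩

/-- **(UNR)** `𝔪_𝔸 ∩ W = p · W` for `W = 𝔸^I`. -/
theorem ttun_unr {p : ℕ} (hp : p.Prime) (𝔸 : ValuationSubring Qb) (h𝔸 : 𝔸.LiesOverPrime p)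
    {w : Qb} (hw : w ∈ ffiwRing 𝔸) (hm : w ∈ 𝔸.nonunits) :
    ∃ w' ∈ ffiwRing 𝔸, w = (p : Qb) * w' := by
  classical
  haveI halg : Algebra.IsAlgebraic ℚ Qb := AlgebraicClosure.isAlgebraic ℚ
  haveI hcl : IsAlgClosure ℚ Qb := AlgebraicClosure.instIsAlgClosure ℚ
  haveI hnormQb : Normal ℚ Qb := IsAlgClosure.normal ℚ Qb
  -- a finite normal level containing `w`
  obtain ⟨E, hEdef⟩ : ∃ E : IntermediateField ℚ Qb,
      E = IntermediateField.normalClosure ℚ ℚ⟮w⟯ Qb := ⟨_, rfl⟩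
  haveI : FiniteDimensional ℚ ℚ⟮w⟯ := s18dd_finiteDimensional_adjoin w
  haveI hEfd : FiniteDimensional ℚ E := by
    rw [hEdef]; exact normalClosure.is_finiteDimensional ℚ ℚ⟮w⟯ Qb
  haveI hEn : Normal ℚ E := by
    rw [hEdef]; exact normalClosure.normal ℚ ℚ⟮w⟯ Qb
  have hwE : w ∈ E := by
    rw [hEdef]
    exact IntermediateField.le_normalClosure ℚ⟮w⟯ (IntermediateField.mem_adjoin_simple_self ℚ w)
  -- `w` lies in the inertia field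
  have hwE0 : w ∈ ssgfE0 𝔸 E := by
    unfold ssgfE0
    rw [IntermediateField.mem_inf]
    refine ⟨hwE, ?_⟩
    rw [IntermediateField.mem_fixedField_iff]
    intro σ hσ
    exact hw.2 σ hσ
  set w₀ : ssgfE0 𝔸 E := ⟨w, hwE0⟩ with hw₀
  have hw₀V : w₀ ∈ s18dVal 𝔸 (ssgfE0 𝔸 E) := by
    unfold s18dVal
    rw [ValuationSubring.mem_comap]
    exact hw.1
  have hw₀nu : w₀ ∈ (s18dVal 𝔸 (ssgfE0 𝔸 E)).nonunits := by
    rw [sstr_mem_nonunits_dVal]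
    exact hm
  have hirr := sqdi_irreducible 𝔸 hp h𝔸 E
  have hnotunit : ¬ IsUnit (⟨w₀, hw₀V⟩ : s18dVal 𝔸 (ssgfE0 𝔸 E)) := by
    intro hu
    have := (ValuationSubring.mem_nonunits_iff_exists_mem_maximalIdeal
      (A := s18dVal 𝔸 (ssgfE0 𝔸 E)) (a := w₀)).mp hw₀nu
    obtain ⟨ha, hmem⟩ := this
    exact (IsLocalRing.mem_maximalIdeal _).mp hmem hu
  obtain ⟨y, hy⟩ := ttun_irreducible_dvd (s18dVal 𝔸 (ssgfE0 𝔸 E)) hirr hnotunit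
  refine ⟨((y : ssgfE0 𝔸 E) : Qb), ⟨?_, ?_⟩, ?_⟩
  · have := y.2
    unfold s18dVal at this
    rw [ValuationSubring.mem_comap] at this
    exact this
  · intro σ hσ
    have hy0 : ((y : ssgfE0 𝔸 E) : Qb) ∈ ssgfE0 𝔸 E := (y : ssgfE0 𝔸 E).2
    unfold ssgfE0 at hy0
    rw [IntermediateField.mem_inf] at hy0
    have := hy0.2
    rw [IntermediateField.mem_fixedField_iff] at this
    exact this σ hσ
  · have h1 := congrArg (fun z : s18dVal 𝔸 (ssgfE0 𝔸 E) => (((z : ssgfE0 𝔸 E)) : Qb)) hy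
    simpa using h1

/-- (UNR), division form: `w / p ∈ W`. -/
theorem ttun_div_mem_W {p : ℕ} (hp : p.Prime) (𝔸 : ValuationSubring Qb) (h𝔸 : 𝔸.LiesOverPrime p)
    {w : Qb} (hw : w ∈ ffiwRing 𝔸) (hm : w ∈ 𝔸.nonunits) : w / (p : Qb) ∈ ffiwRing 𝔸 := by
  obtain ⟨w', hw', rfl⟩ := ttun_unr hp 𝔸 h𝔸 hw hm
  have hp0 : (p : Qb) ≠ 0 := Nat.cast_ne_zero.mpr hp.ne_zero
  rwa [mul_div_cancel_left₀ _ hp0]

/-- (UNR), division form: `w / p ∈ 𝔸`. -/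
theorem ttun_div_mem {p : ℕ} (hp : p.Prime) (𝔸 : ValuationSubring Qb) (h𝔸 : 𝔸.LiesOverPrime p)
    {w : Qb} (hw : w ∈ ffiwRing 𝔸) (hm : w ∈ 𝔸.nonunits) : w / (p : Qb) ∈ 𝔸 :=
  (ttun_div_mem_W hp 𝔸 h𝔸 hw hm).1

/-- (UNR) in the spelling `ffWI 𝔸 = ffW 𝔸 (ffI 𝔸)` of `FF/Spec2.lean` (`= ffiwRing 𝔸` by `rfl`). -/
theorem ttun_unr_WI {p : ℕ} (hp : p.Prime) (𝔸 : ValuationSubring FfQb) (h𝔸 : 𝔸.LiesOverPrime p)
    {w : FfQb} (hw : w ∈ ffWI 𝔸) (hm : w ∈ 𝔸.nonunits) :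
    ∃ w' ∈ ffWI 𝔸, w = (p : FfQb) * w' :=
  ttun_unr hp 𝔸 h𝔸 hw hm

/-- (UNR) for elements of the subtype `↥(ffWI 𝔸)`: a `w : W` that is a non-unit of `𝔸` is
`p * w'` in `W`. -/
theorem ttun_unr_sub {p : ℕ} (hp : p.Prime) (𝔸 : ValuationSubring FfQb) (h𝔸 : 𝔸.LiesOverPrime p)
    (w : ↥(ffWI 𝔸)) (hm : (w : FfQb) ∈ 𝔸.nonunits) :
    ∃ w' : ↥(ffWI 𝔸), w = (p : ↥(ffWI 𝔸)) * w' := by
  obtain ⟨w', hw', h⟩ := ttun_unr_WI hp 𝔸 h𝔸 w.2 hm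
  exact ⟨⟨w', hw'⟩, Subtype.ext (by simpa using h)⟩

/-- for `w ∈ W`: `w` is a non-unit of `𝔸` iff `p ∣ w` in `W`. -/
theorem ttun_nonunits_iff {p : ℕ} (hp : p.Prime) (𝔸 : ValuationSubring FfQb)
    (h𝔸 : 𝔸.LiesOverPrime p) {w : FfQb} (hw : w ∈ ffWI 𝔸) :
    w ∈ 𝔸.nonunits ↔ ∃ w' ∈ ffWI 𝔸, w = (p : FfQb) * w' := by
  constructor
  · exact ttun_unr_WI hp 𝔸 h𝔸 hw
  · rintro ⟨w', hw', rfl⟩
    have hpm : ((p : ℕ) : FfQb) ∈ 𝔸.nonunits := h𝔸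
    rw [ValuationSubring.mem_nonunits_iff] at hpm ⊢
    rw [map_mul]
    have h1 : 𝔸.valuation w' ≤ 1 := (ValuationSubring.valuation_le_one_iff 𝔸 w').mpr hw'.1
    calc 𝔸.valuation (p : FfQb) * 𝔸.valuation w' ≤ 𝔸.valuation (p : FfQb) * 1 := by
          gcongr
      _ = 𝔸.valuation (p : FfQb) := mul_one _
      _ < 1 := hpm

end Fermat.Agent.TT
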