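import Mathlib
import Fermat.Agent.FF.OntoAbs

/-!
# Program TT (S33), two-valuation layer: ONTO for the chart lattices, abstract form

Owner: helper5.  Namespace `Fermat.Agent.TT`, prefix `tto`.  Mathlib + `FF/OntoAbs` only.

`A` a local ring with residue field `k`, `F` a commutative `A`-algebra, `O ⊂ F` an `A`-subalgebra
(the two-valuation Gauss ring `{v₁ ≥ 0} ∩ {v₂ ≥ 0}`), `red : O →+* Fk` a ring homomorphism into ANY
commutative `k`-algebra `Fk` (for `X₀(pM)` at `p`: `Fk = F_k(M) × F_k(M)`), compatible with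
`A → k`.  `B, B' ⊂ O` two `A`-subalgebras (the integral closures of `A[u]`, `A[u⁻¹]`), `u ∈ B`,
`u' ∈ B'`, `u u' = 1`, with finite pole orders (`hpole`, `hpole'`).

The chart rings of the special fibre are DEFINED as `C := red B`, `C' := red B'`.  Then, under the
hypotheses `FfoaData.Hyp` on `(C, C', ū, ū')` (finite generation over `k[ū]`, `k[ū⁻¹]`, and
`C ∩ C'` finite-dimensional, all of which are inherited from an ambient product of normal chart
rings: `tto_hyp_of_ambient`), for `m ≥ m₀`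

  `red (B ∩ u^m B') = C ∩ ū^m C'`                                   (`tto_onto`).

No Riemann–Roch, no genus identity, no hypothesis on the singularities of the special fibre.
-/

set_option autoImplicit false
set_option linter.unusedSectionVars false

namespace Fermat.Agent.TT

open IsLocalRing Fermat.Agent.FF

/-- the data of a two-chart integral model with an arbitrary special fibre algebra -/
structure TtoData (A F Fk : Type*) [CommRing A] [IsLocalRing A] [CommRing F] [Algebra A F]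
    [CommRing Fk] [Algebra (ResidueField A) Fk] where
  /-- the Gauss ring -/
  O : Subalgebra A F
  /-- the reduction -/
  red : ↥O →+* Fk
  red_alg : ∀ a : A, red (algebraMap A ↥O a) = algebraMap (ResidueField A) Fk (residue A a)
  /-- the chart ring of `u` -/
  B : Subalgebra A F
  /-- the chart ring of `u⁻¹` -/
  B' : Subalgebra A F
  hB : B ≤ O
  hB' : B' ≤ O
  /-- the chart coordinate and its inverse -/
  u : F
  u' : F
  huu' : u * u' = 1
  hu : u ∈ B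
  hu' : u' ∈ B'
  /-- finite pole order at `u = ∞` -/
  hpole : ∀ b ∈ B, ∃ n : ℕ, b * u' ^ n ∈ B'
  /-- finite pole order at `u = 0` -/
  hpole' : ∀ b' ∈ B', ∃ n : ℕ, u ^ n * b' ∈ B

namespace TtoData

variable {A F Fk : Type*} [CommRing A] [IsLocalRing A] [CommRing F] [Algebra A F]
  [CommRing Fk] [Algebra (ResidueField A) Fk] (D : TtoData A F Fk)

theorem hu'u : D.u' * D.u = 1 := by rw [mul_comm, D.huu']

theorem u_pow_mul_u'_pow (m : ℕ) : D.u ^ m * D.u' ^ m = 1 := by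
  rw [← mul_pow, D.huu', one_pow]

/-- the reduction of an element of `F` known to lie in `O` -/
def redOf (x : F) (hx : x ∈ D.O) : Fk := D.red ⟨x, hx⟩

theorem redOf_add {x y : F} (hx : x ∈ D.O) (hy : y ∈ D.O) :
    D.redOf (x + y) (D.O.add_mem hx hy) = D.redOf x hx + D.redOf y hy :=
  map_add D.red ⟨x, hx⟩ ⟨y, hy⟩

theorem redOf_mul {x y : F} (hx : x ∈ D.O) (hy : y ∈ D.O) :
    D.redOf (x * y) (D.O.mul_mem hx hy) = D.redOf x hx * D.redOf y hy :=
  map_mul D.red ⟨x, hx⟩ ⟨y, hy⟩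

theorem redOf_congr {x y : F} (h : x = y) (hx : x ∈ D.O) (hy : y ∈ D.O) :
    D.redOf x hx = D.redOf y hy := by
  subst h; rfl

theorem redOf_zero : D.redOf 0 D.O.zero_mem = 0 := map_zero D.red

theorem redOf_one : D.redOf 1 D.O.one_mem = 1 := map_one D.red

theorem redOf_pow {x : F} (hx : x ∈ D.O) (n : ℕ) :
    D.redOf (x ^ n) (D.O.pow_mem hx n) = D.redOf x hx ^ n :=
  map_pow D.red ⟨x, hx⟩ n

theorem redOf_algebraMap (a : A) :
    D.redOf (algebraMap A F a) (D.O.algebraMap_mem a) =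
      algebraMap (ResidueField A) Fk (residue A a) :=
  D.red_alg a

/-- `ū` -/
def ub : Fk := D.redOf D.u (D.hB D.hu)

/-- `ū'` -/
def ub' : Fk := D.redOf D.u' (D.hB' D.hu')

theorem ub_mul_ub' : D.ub * D.ub' = 1 := by
  rw [ub, ub', ← D.redOf_mul]
  rw [D.redOf_congr D.huu' _ D.O.one_mem, D.redOf_one]

/-- `C = red B` -/
def C : Subalgebra (ResidueField A) Fk where
  carrier := {c | ∃ b, ∃ hb : b ∈ D.B, D.redOf b (D.hB hb) = c}
  mul_mem' := by
    rintro _ _ ⟨b, hb, rfl⟩ ⟨b', hb', rfl⟩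
    exact ⟨b * b', D.B.mul_mem hb hb', D.redOf_mul _ _⟩
  one_mem' := ⟨1, D.B.one_mem, D.redOf_one⟩
  add_mem' := by
    rintro _ _ ⟨b, hb, rfl⟩ ⟨b', hb', rfl⟩
    exact ⟨b + b', D.B.add_mem hb hb', D.redOf_add _ _⟩
  zero_mem' := ⟨0, D.B.zero_mem, D.redOf_zero⟩
  algebraMap_mem' := by
    intro κ
    obtain ⟨a, rfl⟩ := residue_surjective κ
    exact ⟨algebraMap A F a, D.B.algebraMap_mem a, D.redOf_algebraMap a⟩

/-- `C' = red B'` -/
def C' : Subalgebra (ResidueField A) Fk where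
  carrier := {c | ∃ b, ∃ hb : b ∈ D.B', D.redOf b (D.hB' hb) = c}
  mul_mem' := by
    rintro _ _ ⟨b, hb, rfl⟩ ⟨b', hb', rfl⟩
    exact ⟨b * b', D.B'.mul_mem hb hb', D.redOf_mul _ _⟩
  one_mem' := ⟨1, D.B'.one_mem, D.redOf_one⟩
  add_mem' := by
    rintro _ _ ⟨b, hb, rfl⟩ ⟨b', hb', rfl⟩
    exact ⟨b + b', D.B'.add_mem hb hb', D.redOf_add _ _⟩
  zero_mem' := ⟨0, D.B'.zero_mem, D.redOf_zero⟩
  algebraMap_mem' := by
    intro κ
    obtain ⟨a, rfl⟩ := residue_surjective κ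
    exact ⟨algebraMap A F a, D.B'.algebraMap_mem a, D.redOf_algebraMap a⟩

theorem mem_C {c : Fk} : c ∈ D.C ↔ ∃ b, ∃ hb : b ∈ D.B, D.redOf b (D.hB hb) = c := Iff.rfl

theorem mem_C' {c : Fk} : c ∈ D.C' ↔ ∃ b, ∃ hb : b ∈ D.B', D.redOf b (D.hB' hb) = c := Iff.rfl

/-- the two charts of the special fibre -/
def toFfoa : FfoaData (ResidueField A) Fk where
  C := D.C
  C' := D.C'
  u := D.ub
  ui := D.ub'
  hu := D.ub_mul_ub'
  hu_mem := ⟨D.u, D.hu, rfl⟩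
  hui_mem := ⟨D.u', D.hu', rfl⟩

/-- `x ∈ Λ_m = B ∩ u^m B'` -/
def InLam (m : ℕ) (x : F) : Prop := x ∈ D.B ∧ x * D.u' ^ m ∈ D.B'

/-- `V_m = red Λ_m` -/
def V (m : ℕ) : Submodule (ResidueField A) Fk where
  carrier := {c | ∃ x, ∃ hx : D.InLam m x, D.redOf x (D.hB hx.1) = c}
  add_mem' := by
    rintro _ _ ⟨x, ⟨hx, hx'⟩, rfl⟩ ⟨y, ⟨hy, hy'⟩, rfl⟩
    refine ⟨x + y, ⟨D.B.add_mem hx hy, ?_⟩, D.redOf_add _ _⟩
    rw [add_mul]
    exact D.B'.add_mem hx' hy'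
  zero_mem' := ⟨0, ⟨D.B.zero_mem, by rw [zero_mul]; exact D.B'.zero_mem⟩, D.redOf_zero⟩
  smul_mem' := by
    rintro κ _ ⟨x, ⟨hx, hx'⟩, rfl⟩
    obtain ⟨a, rfl⟩ := residue_surjective κ
    refine ⟨algebraMap A F a * x, ⟨D.B.mul_mem (D.B.algebraMap_mem a) hx, ?_⟩, ?_⟩
    · rw [mul_assoc]
      exact D.B'.mul_mem (D.B'.algebraMap_mem a) hx'
    · rw [D.redOf_mul (D.O.algebraMap_mem a) (D.hB hx), D.redOf_algebraMap, Algebra.smul_def]

theorem mem_V {m : ℕ} {c : Fk} :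
    c ∈ D.V m ↔ ∃ x, ∃ hx : D.InLam m x, D.redOf x (D.hB hx.1) = c := Iff.rfl

theorem V_mono (m : ℕ) : D.V m ≤ D.V (m + 1) := by
  rintro _ ⟨x, ⟨hx, hx'⟩, rfl⟩
  refine ⟨x, ⟨hx, ?_⟩, rfl⟩
  rw [pow_succ, ← mul_assoc]
  exact D.B'.mul_mem hx' D.hu'

theorem u_mul_mem_V (m : ℕ) {c : Fk} (hc : c ∈ D.V m) : D.ub * c ∈ D.V (m + 1) := by
  obtain ⟨x, ⟨hx, hx'⟩, rfl⟩ := hc
  refine ⟨D.u * x, ⟨D.B.mul_mem D.hu hx, ?_⟩, ?_⟩
  · have : D.u * x * D.u' ^ (m + 1) = (D.u * D.u') * (x * D.u' ^ m) := by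
      rw [pow_succ]; ring
    rw [this, D.huu', one_mul]
    exact hx'
  · rw [D.redOf_mul (D.hB D.hu) (D.hB hx)]
    rfl

theorem V_le_L (m : ℕ) : D.V m ≤ D.toFfoa.L m := by
  rintro _ ⟨x, ⟨hx, hx'⟩, rfl⟩
  refine ⟨⟨x, hx, rfl⟩, x * D.u' ^ m, hx', ?_⟩
  rw [D.redOf_mul (D.hB hx) (D.O.pow_mem (D.hB' D.hu') m), D.redOf_pow]
  rfl

/-- **ONTO**: for `m ≥ m₀` every element of `C ∩ ū^m C'` is the reduction of an element of
`Λ_m = B ∩ u^m B'`. -/
theorem tto_onto (H : D.toFfoa.Hyp) :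
    ∃ m₀ : ℕ, ∀ m ≥ m₀, ∀ c : Fk, c ∈ D.C → c * D.ub' ^ m ∈ D.C' →
      ∃ x, ∃ hx : x ∈ D.B, x * D.u' ^ m ∈ D.B' ∧ D.redOf x (D.hB hx) = c := by
  have h3 : ∀ c ∈ D.toFfoa.C, ∃ m, c ∈ D.V m := by
    rintro _ ⟨b, hb, rfl⟩
    obtain ⟨n, hn⟩ := D.hpole b hb
    exact ⟨n, b, ⟨hb, hn⟩, rfl⟩
  have h4 : ∀ c' ∈ D.toFfoa.C', ∃ j₀ : ℕ, ∀ j ≥ j₀, D.toFfoa.u ^ j * c' ∈ D.V j := by
    rintro _ ⟨b', hb', rfl⟩
    obtain ⟨j₀, hj₀⟩ := D.hpole' b' hb'
    refine ⟨j₀, fun j hj => ?_⟩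
    have hmem : D.u ^ j * b' ∈ D.B := by
      have : D.u ^ j * b' = D.u ^ (j - j₀) * (D.u ^ j₀ * b') := by
        rw [← mul_assoc, ← pow_add, Nat.sub_add_cancel hj]
      rw [this]
      exact D.B.mul_mem (D.B.pow_mem D.hu _) hj₀
    refine ⟨D.u ^ j * b', ⟨hmem, ?_⟩, ?_⟩
    · have : D.u ^ j * b' * D.u' ^ j = (D.u ^ j * D.u' ^ j) * b' := by ring
      rw [this, D.u_pow_mul_u'_pow, one_mul]
      exact hb'
    · rw [D.redOf_congr rfl _ (D.O.mul_mem (D.O.pow_mem (D.hB D.hu) j) (D.hB' hb')),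
        D.redOf_mul (D.O.pow_mem (D.hB D.hu) j) (D.hB' hb'), D.redOf_pow (D.hB D.hu)]
      rfl
  obtain ⟨m₀, hm₀⟩ := D.toFfoa.ffoa_onto H D.V D.V_mono (fun m c hc => D.u_mul_mem_V m hc) h3 h4
  refine ⟨m₀, fun m hm c hc hc' => ?_⟩
  obtain ⟨x, ⟨hx, hx'⟩, hxc⟩ := hm₀ m hm ⟨hc, hc'⟩
  exact ⟨x, hx, hx', hxc⟩

/-- `red Λ_m = C ∩ ū^m C'` for `m ≥ m₀` -/
theorem tto_V_eq_L (H : D.toFfoa.Hyp) : ∃ m₀ : ℕ, ∀ m ≥ m₀, D.V m = D.toFfoa.L m := by
  obtain ⟨m₀, hm₀⟩ := D.tto_onto H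
  refine ⟨m₀, fun m hm => le_antisymm (D.V_le_L m) ?_⟩
  rintro c ⟨hc, hc'⟩
  obtain ⟨x, hx, hx', hxc⟩ := hm₀ m hm c hc hc'
  exact ⟨x, ⟨hx, hx'⟩, hxc⟩

end TtoData

/-! ### the hypotheses `FfoaData.Hyp` from an ambient finitely generated module -/

section Ambient

variable {k Fk : Type*} [Field k] [CommRing Fk] [Algebra k Fk]

/-- the `k`-span of the `t^j s` is stable under multiplication by `k[t]` -/
theorem tto_span_mul_mem (t : Fk) (T : Set Fk) {a : Fk} (ha : a ∈ Algebra.adjoin k {t}) {x : Fk}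
    (hx : x ∈ Submodule.span k {x | ∃ s ∈ T, ∃ j : ℕ, x = t ^ j * s}) :
    a * x ∈ Submodule.span k {x | ∃ s ∈ T, ∃ j : ℕ, x = t ^ j * s} := by
  set S : Submodule k Fk := Submodule.span k {x | ∃ s ∈ T, ∃ j : ℕ, x = t ^ j * s} with hS
  revert x
  induction ha using Algebra.adjoin_induction with
  | mem y hy =>
    rw [Set.mem_singleton_iff] at hy
    subst hy
    intro x hx
    have key : S ≤ S.comap (LinearMap.mulLeft k y) := by
      refine Submodule.span_le.2 ?_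
      rintro _ ⟨s, hs, j, rfl⟩
      show y * (y ^ j * s) ∈ S
      refine Submodule.subset_span ⟨s, hs, j + 1, ?_⟩
      rw [pow_succ']; ring
    exact key hx
  | algebraMap r =>
    intro x hx
    rw [← Algebra.smul_def]
    exact S.smul_mem r hx
  | add y z _ _ hy hz =>
    intro x hx
    rw [add_mul]
    exact S.add_mem (hy hx) (hz hx)
  | mul y z _ _ hy hz =>
    intro x hx
    rw [mul_assoc]
    exact hy (hz hx)

/-- `k[t]` is noetherian -/
theorem tto_adjoin_noetherian (t : Fk) : IsNoetherianRing ↥(Algebra.adjoin k {t}) := by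
  have hrange : Algebra.adjoin k {t} = (Polynomial.aeval t : Polynomial k →ₐ[k] Fk).range :=
    Algebra.adjoin_singleton_eq_range_aeval k t
  let f : Polynomial k →+* ↥(Algebra.adjoin k {t}) :=
    { toFun := fun a => ⟨Polynomial.aeval t a, by rw [hrange]; exact ⟨a, rfl⟩⟩
      map_one' := Subtype.ext (map_one _)
      map_mul' := fun a b => Subtype.ext (map_mul _ a b)
      map_zero' := Subtype.ext (map_zero _)
      map_add' := fun a b => Subtype.ext (map_add _ a b) }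
  refine isNoetherianRing_of_surjective (Polynomial k) _ f ?_
  rintro ⟨y, hy⟩
  rw [hrange] at hy
  obtain ⟨a, rfl⟩ := hy
  exact ⟨a, rfl⟩

/-- a `k[t]`-stable subalgebra contained in a finitely generated `k[t]`-module is a finitely
generated `k[t]`-module (in the span form of `FfoaData.Hyp`) -/
theorem tto_fg_of_ambient (C : Subalgebra k Fk) (t : Fk) (ht : t ∈ C) (T0 : Finset Fk)
    (hT0 : ∀ c ∈ C, c ∈ Submodule.span k {x | ∃ s ∈ T0, ∃ j : ℕ, x = t ^ j * s}) :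
    ∃ T : Finset Fk, (∀ s ∈ T, s ∈ C) ∧
      ∀ c ∈ C, c ∈ Submodule.span k {x | ∃ s ∈ T, ∃ j : ℕ, x = t ^ j * s} := by
  classical
  set P : Subalgebra k Fk := Algebra.adjoin k {t} with hP
  have : IsNoetherianRing ↥P := tto_adjoin_noetherian t
  have hPC : P ≤ C := Algebra.adjoin_le (by
    intro y hy
    rw [Set.mem_singleton_iff] at hy
    rw [hy]
    exact ht)
  have htP : t ∈ P := Algebra.subset_adjoin rfl
  -- the ambient module and `C` as `P`-submodules of `Fk`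
  set M0 : Submodule ↥P Fk := Submodule.span ↥P (T0 : Set Fk) with hM0
  let CP : Submodule ↥P Fk :=
    { carrier := {c | c ∈ C}
      add_mem' := fun ha hb => C.add_mem ha hb
      zero_mem' := C.zero_mem
      smul_mem' := fun a c hc => by
        show (a : Fk) * c ∈ C
        exact C.mul_mem (hPC a.2) hc }
  have hle : CP ≤ M0 := by
    intro c hc
    have h1 := hT0 c hc
    have key : Submodule.span k {x | ∃ s ∈ T0, ∃ j : ℕ, x = t ^ j * s} ≤
        M0.restrictScalars k := by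
      refine Submodule.span_le.2 ?_
      rintro _ ⟨s, hs, j, rfl⟩
      show t ^ j * s ∈ M0
      have : t ^ j * s = (⟨t ^ j, P.pow_mem htP j⟩ : ↥P) • s := rfl
      rw [this]
      exact M0.smul_mem _ (Submodule.subset_span hs)
    exact key h1
  have : IsNoetherian ↥P ↥M0 := isNoetherian_of_fg_of_noetherian M0 ⟨T0, rfl⟩
  have : IsNoetherian ↥P ↥CP := isNoetherian_of_le hle
  have hfg : CP.FG := (Submodule.fg_top CP).1 (IsNoetherian.noetherian ⊤)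
  obtain ⟨T, hT⟩ := hfg
  refine ⟨T, fun s hs => ?_, fun c hc => ?_⟩
  · have : s ∈ CP := by rw [← hT]; exact Submodule.subset_span hs
    exact this
  · have hc' : c ∈ Submodule.span ↥P (T : Set Fk) := by rw [hT]; exact hc
    have key : ∀ y ∈ Submodule.span ↥P (T : Set Fk),
        y ∈ Submodule.span k {x | ∃ s ∈ T, ∃ j : ℕ, x = t ^ j * s} := by
      intro y hy
      induction hy using Submodule.span_induction with
      | mem y hy => exact Submodule.subset_span ⟨y, hy, 0, by simp⟩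
      | zero => exact Submodule.zero_mem _
      | add x y _ _ hx hy => exact Submodule.add_mem _ hx hy
      | smul a x _ hx => exact tto_span_mul_mem t (T : Set Fk) a.2 hx
    exact key c hc'

/-- the span form in a product `Fk₁ × Fk₂` from the span forms in the two factors -/
theorem tto_span_prod {Fk₁ Fk₂ : Type*} [CommRing Fk₁] [CommRing Fk₂] [Algebra k Fk₁]
    [Algebra k Fk₂] [DecidableEq Fk₁] [DecidableEq Fk₂] (t₁ : Fk₁) (t₂ : Fk₂)
    (T₁ : Finset Fk₁) (T₂ : Finset Fk₂)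
    {c₁ : Fk₁} (h₁ : c₁ ∈ Submodule.span k {x | ∃ s ∈ T₁, ∃ j : ℕ, x = t₁ ^ j * s})
    {c₂ : Fk₂} (h₂ : c₂ ∈ Submodule.span k {x | ∃ s ∈ T₂, ∃ j : ℕ, x = t₂ ^ j * s}) :
    ((c₁, c₂) : Fk₁ × Fk₂) ∈ Submodule.span k
      {x | ∃ s ∈ T₁.image (fun s => ((s, 0) : Fk₁ × Fk₂)) ∪
          T₂.image (fun s => ((0, s) : Fk₁ × Fk₂)), ∃ j : ℕ, x = ((t₁, t₂) : Fk₁ × Fk₂) ^ j * s} := by
  set S : Submodule k (Fk₁ × Fk₂) := Submodule.span k
      {x | ∃ s ∈ T₁.image (fun s => ((s, 0) : Fk₁ × Fk₂)) ∪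
          T₂.image (fun s => ((0, s) : Fk₁ × Fk₂)), ∃ j : ℕ, x = ((t₁, t₂) : Fk₁ × Fk₂) ^ j * s}
    with hS
  have e1 : Submodule.span k {x | ∃ s ∈ T₁, ∃ j : ℕ, x = t₁ ^ j * s} ≤
      S.comap (LinearMap.inl k Fk₁ Fk₂) := by
    refine Submodule.span_le.2 ?_
    rintro _ ⟨s, hs, j, rfl⟩
    show ((t₁ ^ j * s, 0) : Fk₁ × Fk₂) ∈ S
    refine Submodule.subset_span ⟨(s, 0), ?_, j, ?_⟩
    · exact Finset.mem_union_left _ (Finset.mem_image.2 ⟨s, hs, rfl⟩)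
    · ext <;> simp
  have e2 : Submodule.span k {x | ∃ s ∈ T₂, ∃ j : ℕ, x = t₂ ^ j * s} ≤
      S.comap (LinearMap.inr k Fk₁ Fk₂) := by
    refine Submodule.span_le.2 ?_
    rintro _ ⟨s, hs, j, rfl⟩
    show ((0, t₂ ^ j * s) : Fk₁ × Fk₂) ∈ S
    refine Submodule.subset_span ⟨(0, s), ?_, j, ?_⟩
    · exact Finset.mem_union_right _ (Finset.mem_image.2 ⟨s, hs, rfl⟩)
    · ext <;> simp
  have : ((c₁, c₂) : Fk₁ × Fk₂) = LinearMap.inl k Fk₁ Fk₂ c₁ + LinearMap.inr k Fk₁ Fk₂ c₂ := by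
    ext <;> simp
  rw [this]
  exact S.add_mem (e1 h₁) (e2 h₂)

end Ambient

namespace TtoData

variable {A F Fk : Type*} [CommRing A] [IsLocalRing A] [CommRing F] [Algebra A F]
  [CommRing Fk] [Algebra (ResidueField A) Fk] (D : TtoData A F Fk)

/-- **the hypotheses on the special fibre from an ambient product of normal chart rings**:
`C ⊂` a finitely generated `k[ū]`-module, `C' ⊂` a finitely generated `k[ū']`-module, `C ∩ C' ⊂` a
finite-dimensional space. -/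
theorem tto_hyp_of_ambient (T0 : Finset Fk)
    (hT0 : ∀ c ∈ D.C, c ∈ Submodule.span (ResidueField A)
      {x | ∃ s ∈ T0, ∃ j : ℕ, x = D.ub ^ j * s})
    (T0' : Finset Fk)
    (hT0' : ∀ c ∈ D.C', c ∈ Submodule.span (ResidueField A)
      {x | ∃ s ∈ T0', ∃ j : ℕ, x = D.ub' ^ j * s})
    (S0 : Submodule (ResidueField A) Fk) (hS0 : S0.FG)
    (h0 : ∀ c ∈ D.C, c ∈ D.C' → c ∈ S0) : D.toFfoa.Hyp where
  hpow := by
    rintro _ ⟨b, hb, rfl⟩
    obtain ⟨n, hn⟩ := D.hpole b hb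
    refine ⟨n, b * D.u' ^ n, hn, ?_⟩
    rw [D.redOf_mul (D.hB hb) (D.O.pow_mem (D.hB' D.hu') n), D.redOf_pow (D.hB' D.hu'), mul_comm]
    rfl
  hfg := tto_fg_of_ambient D.C D.ub ⟨D.u, D.hu, rfl⟩ T0 hT0
  hfg' := tto_fg_of_ambient D.C' D.ub' ⟨D.u', D.hu', rfl⟩ T0' hT0'
  hfin0 := by
    refine FfoaData.ffoa_fg_of_le ?_ hS0
    rintro c ⟨hc, hc'⟩
    rw [pow_zero, mul_one] at hc'
    exact h0 c hc hc'

end TtoData

end Fermat.Agent.TT
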