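import Fermat.Agent.FF.Spec2

/-!
# PROGRAM TT (S33: ordinary at `p ∥ N`): interface file

Owner: helper16 (program manager).  Namespace `Fermat.Agent.TT`, prefix `tt`.

`I := ffI 𝔸` is the inertia group of the place `𝔸` of `ℚ̄` over `p`, `W := ffWI 𝔸 = 𝔸^I`.
All actions in this file are actions of `I` only (`act : ↥(ffI 𝔸) → M → M`).

* `TtNoTriv act Γ0` : **(β)** no non-zero `I`-trivial subquotient inside `Γ0`;
* `TtConnOut 𝔸 M act` : a CONNECTED (CORE-OUT): FF's (L1)-(L4) plus `φ m - φ 0 ∈ 𝔪_𝔸`;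
* the arrows `TtConnSpec` (B: connected order ⟹ (β), `p` odd), `TtGeomSpec` (A: an `I`-stable
  subgroup `Γ0` of `J₀(N)[p^k]`, `p ∥ N`, with (α) `(σ - 1) J₀(N)[p^k] ⊆ Γ0` and a connected order on
  `Γ0`), `TtGeomAll` (A at every GOOD level).
* the transfer (P0) and its intrinsic input literal (`ttMin`, `TtKR`, `TtGeoSpec`) live in
  `TT/P0/Spec.lean` (helper2); the glue is `TT/Top.lean`.
-/

set_option autoImplicit false

namespace Fermat.Agent.TT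

open Fermat.Agent.FF

/-- **(β)**: inside `Γ0` there is no non-zero subquotient `Y/Z` (`Z ≤ Y ≤ Γ0`, both stable) on
which the group acts trivially. -/
def TtNoTriv {G : Type} {M : Type} [AddCommGroup M] (act : G → M → M) (Γ0 : AddSubgroup M) :
    Prop :=
  ∀ Y Z : AddSubgroup M, Z ≤ Y → Y ≤ Γ0 →
    (∀ σ : G, ∀ y ∈ Y, act σ y ∈ Y) → (∀ σ : G, ∀ z ∈ Z, act σ z ∈ Z) →
    (∀ σ : G, ∀ y ∈ Y, act σ y - y ∈ Z) → Y ≤ Z

/-- **connected (CORE-OUT)**: FF's (L1)-(L4) for an `I`-action, plus (L5) every generator is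
constant modulo the maximal ideal of `𝔸`. -/
def TtConnOut (𝔸 : ValuationSubring FfQb) (M : Type) [AddCommGroup M]
    (act : ↥(ffI 𝔸) → M → M) : Prop :=
  ∃ Gen : Finset (M → FfQb),
    (∀ φ ∈ Gen, ∀ m : M, φ m ∈ 𝔸) ∧
    (∀ φ ∈ Gen, ∀ σ : ↥(ffI 𝔸), ∀ m : M, φ (act σ m) = (σ : FfGal) (φ m)) ∧
    (∀ m m' : M, m ≠ m' → ∃ φ ∈ Gen, φ m ≠ φ m') ∧
    (∀ φ ∈ Gen, ∃ (n : ℕ)
      (a b : Fin n → ↥(Algebra.adjoin ↥(ffWI 𝔸) (↑Gen : Set (M → FfQb)))),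
      ∀ m m' : M, φ (m + m') = ∑ i, (a i).1 m * (b i).1 m') ∧
    ∀ φ ∈ Gen, ∀ m : M, φ m - φ 0 ∈ 𝔸.nonunits

/-- the action of `I` on `J₀(N)[n]`. -/
noncomputable def ttTorsAct (𝔸 : ValuationSubring FfQb) (N : ℕ) (n : ℤ) (σ : ↥(ffI 𝔸))
    (x : ↥(Submodule.torsionBy ℤ (ModularCurve.JZero N) n)) :
    ↥(Submodule.torsionBy ℤ (ModularCurve.JZero N) n) :=
  ffTorsAct N n (σ : FfGal) x

/-- the restriction of an action to a stable subgroup. -/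
def ttResAct {G : Type} {M : Type} [AddCommGroup M] (act : G → M → M) (Γ0 : AddSubgroup M)
    (h : ∀ σ : G, ∀ m ∈ Γ0, act σ m ∈ Γ0) (σ : G) (m : ↥Γ0) : ↥Γ0 :=
  ⟨act σ m.1, h σ m.1 m.2⟩

/-- **(B)** (helper20's lemma): over the unramified `W = 𝔸^I`, `p` odd, a finite `p`-group with a
connected `Δ`-closed separating `I`-equivariant order has no non-zero `I`-trivial subquotient. -/
def TtConnSpec (p : ℕ) : Prop :=
  p.Prime → p ≠ 2 → ∀ (𝔸 : ValuationSubring FfQb), 𝔸.LiesOverPrime p →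
    ∀ (M : Type) [AddCommGroup M] [Finite M] (act : ↥(ffI 𝔸) → M → M),
      (∀ m : M, ∃ k : ℕ, p ^ k • m = 0) →
      (∀ σ m m', act σ (m + m') = act σ m + act σ m') →
      (∀ σ τ m, act (σ * τ) m = act σ (act τ m)) → (∀ m, act 1 m = m) →
      TtConnOut 𝔸 M act → TtNoTriv act (⊤ : AddSubgroup M)

/-- **(A)** the geometric arrow: the kernel of reduction `Γ0` of `J₀(N)[p^k]` at the place `𝔸`:
`I`-stable, (α), and a connected order on it. -/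
def TtGeomSpec (N p k : ℕ) (𝔸 : ValuationSubring FfQb) : Prop :=
  ∃ (Γ0 : AddSubgroup ↥(Submodule.torsionBy ℤ (ModularCurve.JZero N) ((p : ℤ) ^ k)))
    (h : ∀ σ : ↥(ffI 𝔸), ∀ m ∈ Γ0, ttTorsAct 𝔸 N ((p : ℤ) ^ k) σ m ∈ Γ0),
    (∀ σ : ↥(ffI 𝔸), ∀ m, ttTorsAct 𝔸 N ((p : ℤ) ^ k) σ m - m ∈ Γ0) ∧
    TtConnOut 𝔸 ↥Γ0 (ttResAct (ttTorsAct 𝔸 N ((p : ℤ) ^ k)) Γ0 h)

/-- (A) at every GOOD level `N` (`p ∥ N`, and `2 ∣ N` if `p = 3`), every `k`, every place over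
`p`.  (The other levels are reached by `FfLevelSpec`, as in program FF.) -/
def TtGeomAll (p : ℕ) : Prop :=
  ∀ (N : ℕ) [NeZero N] (k : ℕ), p ∣ N → ¬ p ^ 2 ∣ N → (5 ≤ p ∨ (5 - p) ∣ N) →
    ∀ 𝔸 : ValuationSubring FfQb, 𝔸.LiesOverPrime p → TtGeomSpec N p k 𝔸

end Fermat.Agent.TT
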