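/-
PROGRAM TT (S33), arrow (B) (prefix `ttc`, owner helper7).

`ttc_conn_of_unr` : `TtConnSpec p` from (UNR) `𝔪_𝔸 ∩ W = p W` (`W = 𝔸^I`).

A finite abelian `p`-group `M` (`p` odd) with an `I`-action and a connected, `Δ`-closed, separating,
`I`-equivariant, `𝔸`-valued finite set of functions `Gen` has no non-zero subquotient `Y/Z` on which
`I` acts trivially.  Proof: `𝓗 := W[Gen]`; if `g ∈ Y \ Z`, `p g ∈ Z`, let `H := 𝓗^Z` (the
`Z`-invariant elements).  Using a `ℚ̄`-independent `W`-basis of `𝓗` (`ffdn_exists_basis`), the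
translation `T` by `g` preserves `H`, and by connectedness + (UNR) `(T - 1) H ⊆ p H`.  As `T^p = 1`
on `H` and `p` is odd, `(T - 1) H ⊆ p^n H` for all `n` (`ttc_transl`), hence `T = 1` on `H`; but the
integral averaging operator produces an element of `H` separating `g` from `0`.
-/
import Fermat.Agent.TT.Spec
import Fermat.Agent.FF.Order.SubQuot
import Fermat.Agent.FF.Desc.Lattice
import Fermat.Agent.FF.InertiaRing
import Fermat.Agent.FF.Rat.Inert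
import Fermat.Agent.FF.Desc.Val

set_option autoImplicit false
set_option linter.unusedSectionVars false

noncomputable section

namespace Fermat.Agent.TT

open Fermat.Agent.FF Polynomial


/-- the Taylor expansion of `(X + 1)^p - 1` to order `3`, for an odd prime `p`. -/
theorem ttc_poly (p : ℕ) (hp : p.Prime) (hp2 : p ≠ 2) :
    ∃ (c : ℕ) (ρ : ℤ[X]), ((X : ℤ[X]) + 1) ^ p - 1 =
      (p : ℤ[X]) * X + ((p * c : ℕ) : ℤ[X]) * X ^ 2 + X ^ 3 * ρ := by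
  have h2lt : 2 < p := lt_of_le_of_ne hp.two_le (Ne.symm hp2)
  obtain ⟨c, hc⟩ : p ∣ p.choose 2 := hp.dvd_choose_self (by norm_num) h2lt
  have hdvd : (X : ℤ[X]) ^ 3 ∣ ((X : ℤ[X]) + 1) ^ p - 1 - ((p : ℤ[X]) * X +
      ((p * c : ℕ) : ℤ[X]) * X ^ 2) := by
    rw [Polynomial.X_pow_dvd_iff]
    intro d hd
    rw [← hc]
    simp only [coeff_sub, coeff_add, Polynomial.coeff_X_add_one_pow, coeff_one,
      coeff_natCast_mul, coeff_X, coeff_X_pow]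
    interval_cases d <;> simp
  obtain ⟨ρ, hρ⟩ := hdvd
  exact ⟨c, ρ, by rw [← hρ]; ring⟩

/-- the abstract divisibility induction: if `p D + p c D² + D³ ρ = 0` on `H` and `D H ⊆ p H`
then `D H ⊆ p^n H` for all `n`. -/
theorem ttc_abs {V : Type*} [AddCommGroup V] (p : ℕ) (htf : ∀ v : V, p • v = 0 → v = 0)
    (H : AddSubgroup V) (D ρ : V →ₗ[ℤ] V) (c : ℕ)
    (hρ : ∀ ψ ∈ H, ρ ψ ∈ H)
    (hid : ∀ ψ ∈ H, p • D ψ + (p * c) • D (D ψ) + D (D (D (ρ ψ))) = 0)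
    (h1 : ∀ ψ ∈ H, ∃ χ ∈ H, D ψ = p • χ) :
    ∀ n : ℕ, ∀ ψ ∈ H, ∃ χ ∈ H, D ψ = p ^ (n + 1) • χ := by
  intro n
  induction n with
  | zero =>
    intro ψ hψ
    obtain ⟨χ, hχ, h⟩ := h1 ψ hψ
    exact ⟨χ, hχ, by rw [h, zero_add, pow_one]⟩
  | succ n ih =>
    intro ψ hψ
    obtain ⟨χ₁, hχ₁, e₁⟩ := ih ψ hψ
    obtain ⟨χ₂, hχ₂, e₂⟩ := ih χ₁ hχ₁
    obtain ⟨χ₃, hχ₃, e₃⟩ := ih (ρ ψ) (hρ ψ hψ)
    obtain ⟨χ₄, hχ₄, e₄⟩ := ih χ₃ hχ₃
    obtain ⟨χ₅, hχ₅, e₅⟩ := ih χ₄ hχ₄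
    refine ⟨-((c * p ^ n) • χ₂) - (p ^ (2 * n)) • χ₅, ?_, ?_⟩
    · exact H.sub_mem (H.neg_mem (H.nsmul_mem hχ₂ _)) (H.nsmul_mem hχ₅ _)
    · have h := hid ψ hψ
      rw [e₃, map_nsmul, e₄, map_nsmul, map_nsmul, e₅, e₁, map_nsmul, e₂] at h
      have h5 : p • (D ψ - p ^ (n + 1 + 1) • (-((c * p ^ n) • χ₂) - (p ^ (2 * n)) • χ₅)) = 0 := by
        rw [e₁]
        rw [← h]
        simp only [smul_sub, smul_neg, smul_smul]
        have a1 : p * c * (p ^ (n + 1) * p ^ (n + 1)) = p * (p ^ (n + 1 + 1) * (c * p ^ n)) := by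
          ring
        have a2 : p ^ (n + 1) * (p ^ (n + 1) * p ^ (n + 1)) =
            p * (p ^ (n + 1 + 1) * p ^ (2 * n)) := by ring
        rw [a1, a2]
        abel
      exact sub_eq_zero.mp (htf _ h5)

section Transl

variable {M : Type*} [AddCommGroup M] {K : Type*} [Field K]

/-- translation of functions by `g`. -/
def ttcT (K : Type*) [Field K] (g : M) : Module.End ℤ (M → K) where
  toFun ψ := fun m => ψ (m + g)
  map_add' _ _ := rfl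
  map_smul' _ _ := rfl

@[simp] theorem ttcT_apply (g : M) (ψ : M → K) (m : M) : ttcT K g ψ m = ψ (m + g) := rfl

theorem ttcT_pow_apply (g : M) (k : ℕ) (ψ : M → K) (m : M) :
    ((ttcT K g) ^ k) ψ m = ψ (m + k • g) := by
  induction k generalizing ψ m with
  | zero => simp
  | succ k ih =>
    rw [pow_succ, Module.End.mul_apply, ih, ttcT_apply, succ_nsmul, add_assoc]

/-- polynomials in an endomorphism preserving `H` preserve `H`. -/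
theorem ttc_aeval_mem {V : Type*} [AddCommGroup V] (H : AddSubgroup V) (f : Module.End ℤ V)
    (hf : ∀ ψ ∈ H, f ψ ∈ H) (q : ℤ[X]) : ∀ ψ ∈ H, (aeval f q) ψ ∈ H := by
  induction q using Polynomial.induction_on with
  | C a =>
    intro ψ hψ
    rw [aeval_C]
    simp only [Module.algebraMap_end_apply]
    exact H.zsmul_mem hψ a
  | add q r hq hr =>
    intro ψ hψ
    rw [map_add, LinearMap.add_apply]
    exact H.add_mem (hq ψ hψ) (hr ψ hψ)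
  | monomial n a ih =>
    intro ψ hψ
    rw [pow_succ, ← mul_assoc, map_mul, aeval_X, Module.End.mul_apply]
    exact ih _ (hf ψ hψ)

/-- **the `E`-argument**: on a subgroup `H` of functions stable under the translation `T` by `g`,
with `T^p = 1` on `H` and `(T - 1) H ⊆ p H`, one has `(T - 1) H ⊆ p^n H` for all `n`
(`p` an odd prime). -/
theorem ttc_transl [CharZero K] (p : ℕ) (hp : p.Prime) (hp2 : p ≠ 2) (H : AddSubgroup (M → K))
    (g : M) (hT : ∀ ψ ∈ H, ttcT K g ψ ∈ H) (hpg : ∀ ψ ∈ H, ∀ m, ψ (m + p • g) = ψ m)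
    (h1 : ∀ ψ ∈ H, ∃ χ ∈ H, ttcT K g ψ - ψ = p • χ) :
    ∀ n : ℕ, ∀ ψ ∈ H, ∃ χ ∈ H, ttcT K g ψ - ψ = p ^ (n + 1) • χ := by
  obtain ⟨c, ρ₀, hpoly⟩ := ttc_poly p hp hp2
  set T : Module.End ℤ (M → K) := ttcT K g with hTdef
  set D : Module.End ℤ (M → K) := T - 1 with hD
  have hDH : ∀ ψ ∈ H, D ψ ∈ H := fun ψ hψ => by
    rw [hD, LinearMap.sub_apply, Module.End.one_apply]
    exact H.sub_mem (hT ψ hψ) hψ
  have hid := congrArg (aeval D) hpoly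
  simp only [map_sub, map_add, map_mul, map_pow, aeval_X, map_one, map_natCast] at hid
  have hDT : D + 1 = T := by rw [hD]; abel
  rw [hDT] at hid
  have htf : ∀ v : M → K, p • v = 0 → v = 0 := by
    intro v hv
    funext m
    have h2 := congrFun hv m
    rw [Pi.smul_apply, Pi.zero_apply, nsmul_eq_mul] at h2
    rcases mul_eq_zero.mp h2 with h3 | h3
    · exact absurd h3 (Nat.cast_ne_zero.mpr hp.ne_zero)
    · exact h3
  have key := ttc_abs p htf H D (aeval D ρ₀) c (ttc_aeval_mem H D hDH ρ₀) ?_ ?_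
  · intro n ψ hψ
    obtain ⟨χ, hχ, h⟩ := key n ψ hψ
    refine ⟨χ, hχ, ?_⟩
    rw [← h, hD, LinearMap.sub_apply, Module.End.one_apply]
  · intro ψ hψ
    have h2 := LinearMap.congr_fun hid ψ
    have h3 : (T ^ p) ψ = ψ := by
      funext m
      rw [hTdef, ttcT_pow_apply]
      exact hpg ψ hψ m
    rw [LinearMap.sub_apply, h3, Module.End.one_apply, sub_self] at h2
    rw [h2]
    simp only [LinearMap.add_apply, Module.End.mul_apply, Module.End.natCast_apply, pow_succ,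
      pow_zero, one_mul]
  · intro ψ hψ
    obtain ⟨χ, hχ, h⟩ := h1 ψ hψ
    refine ⟨χ, hχ, ?_⟩
    rw [← h, hD, LinearMap.sub_apply, Module.End.one_apply]

end Transl



section Good

variable (𝔸 : ValuationSubring FfQb) {M : Type} [AddCommGroup M] (act : ↥(ffI 𝔸) → M → M)

/-- the `𝔸`-valued, `I`-equivariant, connected functions. -/
def ttcGood : Subalgebra ↥(ffWI 𝔸) (M → FfQb) where
  carrier := {ψ | (∀ m, ψ m ∈ 𝔸) ∧
    (∀ (σ : ↥(ffI 𝔸)) (m : M), ψ (act σ m) = (σ : FfGal) (ψ m)) ∧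
    ∀ m, ψ m - ψ 0 ∈ 𝔸.nonunits}
  mul_mem' {a b} ha hb := by
    refine ⟨fun m => 𝔸.mul_mem _ _ (ha.1 m) (hb.1 m), fun σ m => ?_, fun m => ?_⟩
    · rw [Pi.mul_apply, Pi.mul_apply, ha.2.1, hb.2.1, map_mul]
    · have h1 : (a * b) m - (a * b) 0 = a m * (b m - b 0) + b 0 * (a m - a 0) := by
        simp only [Pi.mul_apply]; ring
      rw [h1]
      exact ffrt_nonunits_add (ffrt_nonunits_mul_mem (ha.1 m) (hb.2.2 m))
        (ffrt_nonunits_mul_mem (hb.1 0) (ha.2.2 m))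
  add_mem' {a b} ha hb := by
    refine ⟨fun m => 𝔸.add_mem _ _ (ha.1 m) (hb.1 m), fun σ m => ?_, fun m => ?_⟩
    · rw [Pi.add_apply, Pi.add_apply, ha.2.1, hb.2.1, map_add]
    · have h1 : (a + b) m - (a + b) 0 = (a m - a 0) + (b m - b 0) := by
        simp only [Pi.add_apply]; ring
      rw [h1]
      exact ffrt_nonunits_add (ha.2.2 m) (hb.2.2 m)
  algebraMap_mem' r := by
    refine ⟨fun m => r.2.1, fun σ m => (r.2.2 σ.1 σ.2).symm, fun m => ?_⟩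
    have h1 : algebraMap ↥(ffWI 𝔸) (M → FfQb) r m - algebraMap ↥(ffWI 𝔸) (M → FfQb) r 0 = 0 :=
      sub_self _
    rw [h1, ValuationSubring.mem_nonunits_iff, map_zero]
    exact zero_lt_one

/-- scaling by the largest coefficient. -/
theorem ttc_exists_scale {ι : Type*} [Fintype ι] (c : ι → FfQb) (hc : c ≠ 0) :
    ∃ j, c j ≠ 0 ∧ ∀ i, c i / c j ∈ 𝔸 := by
  classical
  obtain ⟨i₀, hi₀⟩ := Function.ne_iff.mp hc
  obtain ⟨j, -, hj⟩ := Finset.exists_max_image Finset.univ (fun i => 𝔸.valuation (c i))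
    ⟨i₀, Finset.mem_univ _⟩
  have hcj0 : c j ≠ 0 := by
    intro h0
    have := hj i₀ (Finset.mem_univ _)
    rw [h0, map_zero] at this
    exact hi₀ ((Valuation.zero_iff _).mp (le_antisymm this zero_le))
  refine ⟨j, hcj0, fun i => ?_⟩
  rw [← 𝔸.valuation_le_one_iff, map_div₀]
  have hv0 : 𝔸.valuation (c j) ≠ 0 := (Valuation.ne_zero_iff _).mpr hcj0
  rw [div_le_one₀ (lt_of_le_of_ne zero_le hv0.symm)]
  exact hj i (Finset.mem_univ _)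

/-- the base of the lattice step: `W = 𝔸^I` inside `ℚ̄` with the action of `I`. -/
theorem ttc_base : FfdnBase (L := FfQb) ↥(ffI 𝔸) ↥(ffWI 𝔸) (ffWI 𝔸) 0 where
  fixed r σ := r.2.2 σ.1 σ.2
  mem r := r.2
  desc x hx _ := ⟨⟨x, hx⟩, rfl⟩
  scale n c hfix hc0 := by
    obtain ⟨j, hj0, hj⟩ := ttc_exists_scale 𝔸 c hc0
    refine ⟨j, hj0, fun i => ⟨⟨c i / c j, hj i, fun σ hσ => ?_⟩, rfl⟩⟩
    rw [map_div₀]
    congr 1
    · exact hfix i ⟨σ, hσ⟩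
    · exact hfix j ⟨σ, hσ⟩
  jac := zero_mem _

/-- (SEP): `⋂ pⁿ 𝔸 = 0`. -/
theorem ttc_sep {p : ℕ} (hp : p.Prime) (h𝔸 : 𝔸.LiesOverPrime p) (x : FfQb)
    (hx : ∀ n : ℕ, ∃ y ∈ 𝔸, x = (p : FfQb) ^ (n + 1) * y) : x = 0 := by
  by_contra hx0
  obtain ⟨C, hC⟩ := ffds_exists_pow_mul_mem hp h𝔸 x⁻¹
  have h1 := hC 1
  rw [AlgEquiv.one_apply] at h1
  obtain ⟨y, hy, hxy⟩ := hx C
  have h2 : (p : FfQb) * ((p : FfQb) ^ C * x⁻¹ * y) = 1 := by
    have : (p : FfQb) * ((p : FfQb) ^ C * x⁻¹ * y) = x⁻¹ * ((p : FfQb) ^ (C + 1) * y) := by ring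
    rw [this, ← hxy, inv_mul_cancel₀ hx0]
  have h3 : 𝔸.valuation ((p : FfQb) * ((p : FfQb) ^ C * x⁻¹ * y)) < 1 := by
    rw [map_mul]
    have h4 : 𝔸.valuation (p : FfQb) < 1 := (ValuationSubring.mem_nonunits_iff 𝔸).mp h𝔸
    have h5 : 𝔸.valuation ((p : FfQb) ^ C * x⁻¹ * y) ≤ 1 :=
      (𝔸.valuation_le_one_iff _).mpr (𝔸.mul_mem _ _ h1 hy)
    calc 𝔸.valuation (p : FfQb) * 𝔸.valuation ((p : FfQb) ^ C * x⁻¹ * y)
        ≤ 𝔸.valuation (p : FfQb) * 1 := mul_le_mul_right h5 _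
      _ < 1 := by rw [mul_one]; exact h4
  rw [h2, map_one] at h3
  exact lt_irrefl _ h3


/-- the properties of the `W`-algebra `𝓗 = W[Gen]` used below. -/
structure TtcCtx (𝓗 : Subalgebra ↥(ffWI 𝔸) (M → FfQb)) : Prop where
  good : 𝓗 ≤ ttcGood 𝔸 act
  fg : 𝓗.toSubmodule.FG
  sep : ∀ m m' : M, m ≠ m' → ∃ φ ∈ 𝓗, φ m ≠ φ m'
  comul : ∀ φ ∈ 𝓗, ∃ (n : ℕ) (a b : Fin n → ↥𝓗),
    ∀ m m' : M, φ (m + m') = ∑ i, (a i).1 m * (b i).1 m'

variable {𝔸} {act}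

/-- the group action axioms give surjectivity. -/
theorem ttc_act_surj (hmul : ∀ σ τ m, act (σ * τ) m = act σ (act τ m)) (hone : ∀ m, act 1 m = m)
    (σ : ↥(ffI 𝔸)) : Function.Surjective (act σ) := fun m =>
  ⟨act σ⁻¹ m, by rw [← hmul, mul_inv_cancel, hone]⟩

/-- (CORE-OUT) + (L5) give the context for `W[Gen]`. -/
theorem ttc_ctx_of_gen [Finite M]
    (hmul : ∀ σ τ m, act (σ * τ) m = act σ (act τ m)) (hone : ∀ m, act 1 m = m)
    (Gen : Finset (M → FfQb))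
    (hL1 : ∀ φ ∈ Gen, ∀ m : M, φ m ∈ 𝔸)
    (hL2 : ∀ φ ∈ Gen, ∀ σ : ↥(ffI 𝔸), ∀ m : M, φ (act σ m) = (σ : FfGal) (φ m))
    (hL3 : ∀ m m' : M, m ≠ m' → ∃ φ ∈ Gen, φ m ≠ φ m')
    (hL4 : ∀ φ ∈ Gen, ∃ (n : ℕ)
      (a b : Fin n → ↥(Algebra.adjoin ↥(ffWI 𝔸) (↑Gen : Set (M → FfQb)))),
      ∀ m m' : M, φ (m + m') = ∑ i, (a i).1 m * (b i).1 m')
    (hL5 : ∀ φ ∈ Gen, ∀ m : M, φ m - φ 0 ∈ 𝔸.nonunits) :
    TtcCtx 𝔸 act (Algebra.adjoin ↥(ffWI 𝔸) (↑Gen : Set (M → FfQb))) where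
  good := Algebra.adjoin_le fun φ hφ => ⟨hL1 φ hφ, hL2 φ hφ, hL5 φ hφ⟩
  fg := by
    refine fg_adjoin_of_finite Gen.finite_toSet fun φ hφ => ?_
    refine ffiw_isIntegral_pi 𝔸 φ (hL1 φ hφ) fun σ hσ => ⟨act ⟨σ, hσ⟩, ?_, fun m => ?_⟩
    · have hs := ttc_act_surj hmul hone ⟨σ, hσ⟩
      exact ⟨Finite.injective_iff_surjective.mpr hs, hs⟩
    · exact hL2 φ hφ ⟨σ, hσ⟩ m
  sep m m' hne := by
    obtain ⟨φ, hφ, h⟩ := hL3 m m' hne
    exact ⟨φ, Algebra.subset_adjoin hφ, h⟩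
  comul := by
    have hle : Algebra.adjoin ↥(ffWI 𝔸) (↑Gen : Set (M → FfQb)) ≤
        (ffsqBox (Algebra.adjoin ↥(ffWI 𝔸) (↑Gen : Set (M → FfQb)))
          (Algebra.adjoin ↥(ffWI 𝔸) (↑Gen : Set (M → FfQb)))).comap
          (ffsqPull ↥(ffWI 𝔸) (fun p : M × M => p.1 + p.2)) :=
      Algebra.adjoin_le fun φ hφ => (ffsq_comul_iff _ φ).mp (hL4 φ hφ)
    intro φ hφ
    exact (ffsq_comul_iff _ φ).mpr (hle hφ)


/-- `Z`-invariant functions. -/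
def TtcInv (Z : AddSubgroup M) (ψ : M → FfQb) : Prop := ∀ m : M, ∀ z ∈ Z, ψ (m + z) = ψ m

/-- the values of a `Z`-invariant element of `𝓗` at the points of `Y` (`I` trivial on `Y/Z`)
lie in `W`. -/
theorem ttc_value_mem {𝓗 : Subalgebra ↥(ffWI 𝔸) (M → FfQb)} (h : TtcCtx 𝔸 act 𝓗)
    {Y Z : AddSubgroup M} (htriv : ∀ σ : ↥(ffI 𝔸), ∀ y ∈ Y, act σ y - y ∈ Z) {ψ : M → FfQb}
    (hψ : ψ ∈ 𝓗) (hψZ : TtcInv Z ψ) {g : M} (hg : g ∈ Y) : ψ g ∈ ffWI 𝔸 := by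
  obtain ⟨h1, h2, -⟩ := h.good hψ
  refine ⟨h1 g, fun σ hσ => ?_⟩
  have h3 := h2 ⟨σ, hσ⟩ g
  have h4 : act ⟨σ, hσ⟩ g = g + (act ⟨σ, hσ⟩ g - g) := by abel
  rw [h4, hψZ _ _ (htriv _ g hg)] at h3
  exact h3.symm

/-- **the translation step**: for a `Z`-invariant `ψ ∈ 𝓗` and `g ∈ Y`, the translate `ψ(· + g)`
lies in `𝓗` and `ψ(· + g) - ψ ∈ p · 𝓗^Z`. -/
theorem ttc_translate {𝓗 : Subalgebra ↥(ffWI 𝔸) (M → FfQb)} (h : TtcCtx 𝔸 act 𝓗)
    (hmul : ∀ σ τ m, act (σ * τ) m = act σ (act τ m)) (hone : ∀ m, act 1 m = m)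
    {p : ℕ} (hp0 : (p : FfQb) ≠ 0)
    (hunr : ∀ w : FfQb, w ∈ ffWI 𝔸 → w ∈ 𝔸.nonunits → ∃ w' ∈ ffWI 𝔸, w = (p : FfQb) * w')
    {Y Z : AddSubgroup M} (htriv : ∀ σ : ↥(ffI 𝔸), ∀ y ∈ Y, act σ y - y ∈ Z) {ψ : M → FfQb}
    (hψ : ψ ∈ 𝓗) (hψZ : TtcInv Z ψ) {g : M} (hg : g ∈ Y) :
    (fun m => ψ (m + g)) ∈ 𝓗 ∧
      ∃ χ ∈ 𝓗, TtcInv Z χ ∧ ∀ m, ψ (m + g) - ψ m = (p : FfQb) * χ m := by
  classical
  have heq : ∀ φ ∈ 𝓗, FfdnEq act φ := fun φ hφ σ m => (h.good hφ).2.1 σ m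
  have hspan0 : Submodule.span ↥(ffWI 𝔸) {φ | φ ∈ 𝓗 ∧ FfdnEq act φ} = 𝓗.toSubmodule := by
    have : {φ | φ ∈ 𝓗 ∧ FfdnEq act φ} = (𝓗.toSubmodule : Set (M → FfQb)) := by
      ext φ
      exact ⟨fun hφ => hφ.1, fun hφ => ⟨hφ, heq φ hφ⟩⟩
    rw [this, Submodule.span_eq]
  obtain ⟨n, e, he, hespan, heind⟩ :=
    ffdn_exists_basis act (ttc_act_surj hmul hone) (ttc_base 𝔸) 𝓗 h.fg hspan0
  obtain ⟨k, a, b, hab⟩ := h.comul ψ hψ
  -- expand the left factors in the basis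
  have ha : ∀ i, ∃ c : Fin n → ↥(ffWI 𝔸), ∑ j, ((c j : ↥(ffWI 𝔸)) : FfQb) • e j = (a i).1 :=
    fun i => ffdn_mem_span_range e _ (by rw [hespan]; exact (a i).2)
  choose w hw using ha
  set α : Fin n → M → FfQb := fun j => ∑ i, w i j • (b i).1 with hα
  have hαH : ∀ j, α j ∈ 𝓗 := fun j =>
    Subalgebra.sum_mem _ fun i _ => Subalgebra.smul_mem _ (b i).2 _
  have h1 : ∀ m m', ψ (m + m') = ∑ j, e j m * α j m' := by
    intro m m'
    rw [hab]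
    simp only [hα, ← hw, Finset.sum_apply, Pi.smul_apply]
    simp only [Subring.smul_def, smul_eq_mul, Finset.mul_sum, Finset.sum_mul]
    rw [Finset.sum_comm]
    refine Finset.sum_congr rfl fun j _ => Finset.sum_congr rfl fun i _ => ?_
    ring
  have hαZ : ∀ j, TtcInv Z (α j) := by
    intro j m z hz
    have h2 : ∑ j, (α j (m + z) - α j m) • e j = 0 := by
      funext m'
      rw [Finset.sum_apply]
      simp only [Pi.smul_apply, smul_eq_mul, Pi.zero_apply, sub_mul]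
      rw [Finset.sum_sub_distrib]
      have h5 : ∀ x : M, ∑ j, α j x * e j m' = ψ (m' + x) := by
        intro x
        rw [h1]
        exact Finset.sum_congr rfl fun j _ => mul_comm _ _
      rw [h5, h5, sub_eq_zero, ← add_assoc, hψZ _ z hz]
    exact sub_eq_zero.mp (Fintype.linearIndependent_iff.mp heind _ h2 j)
  have hαW : ∀ j, ∀ y ∈ Y, α j y ∈ ffWI 𝔸 := fun j y hy =>
    ttc_value_mem h htriv (hαH j) (hαZ j) hy
  refine ⟨?_, ?_⟩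
  · have h2 : (fun m => ψ (m + g)) = ∑ j, (⟨α j g, hαW j g hg⟩ : ↥(ffWI 𝔸)) • e j := by
      funext m
      rw [h1, Finset.sum_apply]
      refine Finset.sum_congr rfl fun j _ => ?_
      rw [Pi.smul_apply, Subring.smul_def, smul_eq_mul, mul_comm]
    rw [h2]
    exact Subalgebra.sum_mem _ fun j _ => Subalgebra.smul_mem _ (he j).1 _
  · have hd : ∀ j, ∃ w' ∈ ffWI 𝔸, α j g - α j 0 = (p : FfQb) * w' := by
      intro j
      refine hunr _ ((ffWI 𝔸).sub_mem (hαW j g hg) (hαW j 0 Y.zero_mem)) ?_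
      have h3 := (h.good (hαH j)).2.2 g
      exact h3
    choose w' hw' hw'eq using hd
    have hχ : ∀ m, ψ (m + g) - ψ m =
        (p : FfQb) * (∑ j, (⟨w' j, hw' j⟩ : ↥(ffWI 𝔸)) • e j) m := by
      intro m
      have h3 : ψ m = ψ (m + 0) := by rw [add_zero]
      rw [h3, h1, h1, ← Finset.sum_sub_distrib, Finset.sum_apply, Finset.mul_sum]
      refine Finset.sum_congr rfl fun j _ => ?_
      rw [Pi.smul_apply, Subring.smul_def, smul_eq_mul, ← mul_sub, hw'eq]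
      ring
    refine ⟨∑ j, (⟨w' j, hw' j⟩ : ↥(ffWI 𝔸)) • e j,
      Subalgebra.sum_mem _ fun j _ => Subalgebra.smul_mem _ (he j).1 _, ?_, hχ⟩
    intro m z hz
    apply mul_left_cancel₀ hp0
    rw [← hχ, ← hχ]
    have h4 : m + z + g = m + g + z := by abel
    rw [h4, hψZ _ z hz, hψZ _ z hz]


/-- injectivity of the action. -/
theorem ttc_act_inj (hmul : ∀ σ τ m, act (σ * τ) m = act σ (act τ m)) (hone : ∀ m, act 1 m = m)
    (σ : ↥(ffI 𝔸)) : Function.Injective (act σ) := fun m m' hmm => by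
  have h1 : act σ⁻¹ (act σ m) = act σ⁻¹ (act σ m') := by rw [hmm]
  rwa [← hmul, ← hmul, inv_mul_cancel, hone, hone] at h1

/-- the integral averaging operator maps `𝓗` to the `Z`-invariants of `𝓗`. -/
theorem ttc_avg_mem [Finite M] {𝓗 : Subalgebra ↥(ffWI 𝔸) (M → FfQb)} (h : TtcCtx 𝔸 act 𝓗)
    (hmul : ∀ σ τ m, act (σ * τ) m = act σ (act τ m)) (hone : ∀ m, act 1 m = m)
    (Z : AddSubgroup M) (hZ : ∀ σ : ↥(ffI 𝔸), ∀ z ∈ Z, act σ z ∈ Z) [Fintype ↥Z]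
    (φ : M → FfQb) (hφ : φ ∈ 𝓗) :
    (fun m => ∑ z : ↥Z, φ (m + (z : M))) ∈ 𝓗 ∧
      TtcInv Z (fun m => ∑ z : ↥Z, φ (m + (z : M))) := by
  classical
  obtain ⟨n, a, b, hab⟩ := h.comul φ hφ
  have hc : ∀ i, (∑ z : ↥Z, (b i).1 (z : M)) ∈ ffWI 𝔸 := by
    intro i
    refine ⟨𝔸.toSubring.sum_mem fun z _ => (h.good (b i).2).1 _, fun σ hσ => ?_⟩
    rw [map_sum]
    have hbij : Function.Bijective
        (fun z : ↥Z => (⟨act ⟨σ, hσ⟩ z, hZ ⟨σ, hσ⟩ z z.2⟩ : ↥Z)) := by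
      apply Finite.injective_iff_bijective.mp
      intro z z' hzz
      exact Subtype.ext (ttc_act_inj hmul hone ⟨σ, hσ⟩ (congrArg Subtype.val hzz))
    rw [← hbij.sum_comp (fun z : ↥Z => (b i).1 (z : M))]
    refine Finset.sum_congr rfl fun z _ => ?_
    exact ((h.good (b i).2).2.1 ⟨σ, hσ⟩ z).symm
  have h1 : (fun m => ∑ z : ↥Z, φ (m + (z : M))) =
      ∑ i, (⟨_, hc i⟩ : ↥(ffWI 𝔸)) • (a i).1 := by
    funext m
    rw [Finset.sum_apply]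
    simp only [hab, Pi.smul_apply, Subring.smul_def, smul_eq_mul]
    rw [Finset.sum_comm]
    refine Finset.sum_congr rfl fun i _ => ?_
    rw [Finset.sum_mul]
    exact Finset.sum_congr rfl fun z _ => mul_comm _ _
  refine ⟨?_, ?_⟩
  · rw [h1]
    exact Subalgebra.sum_mem _ fun i _ => Subalgebra.smul_mem _ (a i).2 _
  · intro m z₀ hz₀
    change ∑ z : ↥Z, φ (m + z₀ + (z : M)) = ∑ z : ↥Z, φ (m + (z : M))
    rw [← Equiv.sum_comp (Equiv.addLeft (⟨z₀, hz₀⟩ : ↥Z)) (fun z : ↥Z => φ (m + (z : M)))]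
    refine Finset.sum_congr rfl fun z _ => ?_
    rw [Equiv.coe_addLeft, AddSubgroup.coe_add, add_assoc]

/-- the `Z`-invariants of `𝓗` separate `g ∉ Z` from `0`. -/
theorem ttc_exists_nontriv [Finite M] {𝓗 : Subalgebra ↥(ffWI 𝔸) (M → FfQb)}
    (h : TtcCtx 𝔸 act 𝓗)
    (hmul : ∀ σ τ m, act (σ * τ) m = act σ (act τ m)) (hone : ∀ m, act 1 m = m)
    (Z : AddSubgroup M) (hZ : ∀ σ : ↥(ffI 𝔸), ∀ z ∈ Z, act σ z ∈ Z) {g : M} (hg : g ∉ Z) :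
    ∃ ψ ∈ 𝓗, TtcInv Z ψ ∧ ψ g ≠ ψ 0 := by
  classical
  have := Fintype.ofFinite ↥Z
  by_contra hcon
  push Not at hcon
  set L : (M → FfQb) →ₗ[FfQb] FfQb :=
    ∑ z : ↥Z, (LinearMap.proj (R := FfQb) (φ := fun _ : M => FfQb) (g + (z : M)) -
      LinearMap.proj (R := FfQb) (φ := fun _ : M => FfQb) (0 + (z : M))) with hL
  have hLapp : ∀ F : M → FfQb, L F = ∑ z : ↥Z, (F (g + (z : M)) - F (0 + (z : M))) := by
    intro F
    rw [hL, LinearMap.sum_apply]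
    rfl
  have hvan : Submodule.span FfQb (𝓗 : Set (M → FfQb)) ≤ LinearMap.ker L := by
    rw [Submodule.span_le]
    intro φ hφ
    rw [SetLike.mem_coe, LinearMap.mem_ker, hLapp, Finset.sum_sub_distrib, sub_eq_zero]
    obtain ⟨h1, h2⟩ := ttc_avg_mem h hmul hone Z hZ φ hφ
    exact hcon _ h1 h2
  rw [ffsq_span_eq_top 𝓗 h.sep] at hvan
  have h1 : L (fun m => if m ∈ Z then 1 else 0) = 0 :=
    LinearMap.mem_ker.mp (hvan Submodule.mem_top)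
  rw [hLapp] at h1
  have h2 : ∀ z : ↥Z, ((if g + (z : M) ∈ Z then (1 : FfQb) else 0) -
      (if 0 + (z : M) ∈ Z then (1 : FfQb) else 0)) = -1 := by
    intro z
    rw [if_neg, if_pos (by rw [zero_add]; exact z.2), zero_sub]
    intro hgz
    apply hg
    have h3 : g = g + (z : M) - (z : M) := by abel
    rw [h3]
    exact Z.sub_mem hgz z.2
  rw [Finset.sum_congr rfl fun z _ => h2 z, Finset.sum_const, Finset.card_univ, nsmul_eq_mul,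
    mul_neg, mul_one, neg_eq_zero] at h1
  have h4 : (Fintype.card ↥Z : FfQb) ≠ 0 := by
    rw [Nat.cast_ne_zero]
    exact Fintype.card_ne_zero
  exact h4 h1

end Good


section Final

/-- **arrow (B) of Program TT**, from (UNR). -/
theorem ttc_conn_of_unr (p : ℕ)
    (hunr : ∀ 𝔸 : ValuationSubring FfQb, 𝔸.LiesOverPrime p → ∀ w : FfQb, w ∈ ffWI 𝔸 →
      w ∈ 𝔸.nonunits → ∃ w' ∈ ffWI 𝔸, w = (p : FfQb) * w') : TtConnSpec p := by
  intro hp hp2 𝔸 h𝔸 M _ _ act htors hadd hmul hone hconn Y Z hZY _ hY hZ htriv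
  classical
  by_contra hYZ
  obtain ⟨y₀, hy₀Y, hy₀Z⟩ := SetLike.not_le_iff_exists.mp hYZ
  -- choose `g ∈ Y \ Z` with `p • g ∈ Z`
  obtain ⟨g, hgY, hgZ, hpgZ⟩ : ∃ g ∈ Y, g ∉ Z ∧ p • g ∈ Z := by
    have hex : ∃ k : ℕ, p ^ k • y₀ ∈ Z := by
      obtain ⟨k, hk⟩ := htors y₀
      exact ⟨k, by rw [hk]; exact Z.zero_mem⟩
    have hk0 : Nat.find hex ≠ 0 := by
      intro h0
      have := Nat.find_spec hex
      rw [h0, pow_zero, one_smul] at this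
      exact hy₀Z this
    obtain ⟨k, hk⟩ := Nat.exists_eq_succ_of_ne_zero hk0
    refine ⟨p ^ k • y₀, Y.nsmul_mem hy₀Y _, ?_, ?_⟩
    · exact Nat.find_min hex (by rw [hk]; exact Nat.lt_succ_self k)
    · have := Nat.find_spec hex
      rw [hk, Nat.succ_eq_add_one, pow_succ', mul_smul] at this
      exact this
  obtain ⟨Gen, hL1, hL2, hL3, hL4, hL5⟩ := hconn
  have hctx := ttc_ctx_of_gen hmul hone Gen hL1 hL2 hL3 hL4 hL5
  set 𝓗 := Algebra.adjoin ↥(ffWI 𝔸) (↑Gen : Set (M → FfQb)) with h𝓗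
  have hp0 : (p : FfQb) ≠ 0 := Nat.cast_ne_zero.mpr hp.ne_zero
  -- the subgroup of `Z`-invariants
  let H : AddSubgroup (M → FfQb) :=
    { carrier := {ψ | ψ ∈ 𝓗 ∧ TtcInv Z ψ}
      add_mem' := fun {a b} ha hb => ⟨𝓗.add_mem ha.1 hb.1, fun m z hz => by
        rw [Pi.add_apply, Pi.add_apply, ha.2 m z hz, hb.2 m z hz]⟩
      zero_mem' := ⟨𝓗.zero_mem, fun _ _ _ => rfl⟩
      neg_mem' := fun {a} ha => ⟨𝓗.neg_mem ha.1, fun m z hz => by
        rw [Pi.neg_apply, Pi.neg_apply, ha.2 m z hz]⟩ }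
  have hT : ∀ ψ ∈ H, ttcT FfQb g ψ ∈ H := fun ψ hψ =>
    ⟨(ttc_translate hctx hmul hone hp0 (hunr 𝔸 h𝔸) htriv hψ.1 hψ.2 hgY).1, fun m z hz => by
      change ψ (m + z + g) = ψ (m + g)
      have : m + z + g = m + g + z := by abel
      rw [this, hψ.2 _ z hz]⟩
  have hpg : ∀ ψ ∈ H, ∀ m, ψ (m + p • g) = ψ m := fun ψ hψ m => hψ.2 m _ hpgZ
  have h1 : ∀ ψ ∈ H, ∃ χ ∈ H, ttcT FfQb g ψ - ψ = p • χ := by
    intro ψ hψ
    obtain ⟨χ, hχ, hχZ, hχeq⟩ :=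
      (ttc_translate hctx hmul hone hp0 (hunr 𝔸 h𝔸) htriv hψ.1 hψ.2 hgY).2
    refine ⟨χ, ⟨hχ, hχZ⟩, ?_⟩
    funext m
    rw [Pi.sub_apply, ttcT_apply, hχeq, Pi.smul_apply, nsmul_eq_mul]
  have key := ttc_transl p hp hp2 H g hT hpg h1
  obtain ⟨ψ, hψ, hψZ, hne⟩ := ttc_exists_nontriv hctx hmul hone Z hZ hgZ
  apply hne
  have h0 : ψ g - ψ 0 = 0 := by
    apply ttc_sep 𝔸 hp h𝔸
    intro n
    obtain ⟨χ, hχ, hχeq⟩ := key n ψ ⟨hψ, hψZ⟩
    refine ⟨χ 0, (hctx.good hχ.1).1 0, ?_⟩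
    have := congrFun hχeq 0
    rw [Pi.sub_apply, ttcT_apply, zero_add, Pi.smul_apply, nsmul_eq_mul, Nat.cast_pow] at this
    exact this
  exact sub_eq_zero.mp h0

end Final

end Fermat.Agent.TT
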