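/-
PROGRAM TT (S33), arrow (B), final form (prefix `ttc`, owner helper7):
`ttc_conn p : TtConnSpec p`, from `ttc_conn_of_unr` (TT/Conn.lean) and helper19's (UNR)
`ttun_unr_WI` (TT/Unr.lean).
-/
import Fermat.Agent.TT.Conn
import Fermat.Agent.TT.Unr

set_option autoImplicit false

namespace Fermat.Agent.TT

open Fermat.Agent.FF

/-- **arrow (B) of Program TT**: over the unramified `W = 𝔸^I`, `p` odd, a finite `p`-group with a
connected `Δ`-closed separating `I`-equivariant order has no non-zero `I`-trivial subquotient. -/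
theorem ttc_conn (p : ℕ) : TtConnSpec p := fun hp =>
  ttc_conn_of_unr p (fun 𝔸 h𝔸 _ hw hm => ttun_unr_WI hp 𝔸 h𝔸 hw hm) hp

end Fermat.Agent.TT
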