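import Fermat.Agent.TT.Spec
import Fermat.Agent.FF.Top

/-!
# PROGRAM TT (S33): the adapter (A) + (B) ⟹ (α) + (β) in `G_ℚ`-action form

Owner: helper16.  Prefix `tttp`.

* `tttp_noTriv_of_top` : (β) on `↥Γ0` (as its own group) gives (β) inside the ambient group;
* `tttp_sub_of_geom`   : `TtGeomSpec N p k 𝔸` + `TtConnSpec p` give an `I`-stable subgroup `Γ0` of
  `J₀(N)[p^k]` with (α) `(σ - 1) J₀(N)[p^k] ⊆ Γ0` and (β) no `I`-trivial subquotient inside `Γ0`,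
  everything stated with `I = 𝔸.inertiaSubgroupIn ℚ` as a subgroup of `G_ℚ` and the action
  `ffTorsAct` (the hypotheses of the intrinsic (KR) criterion of `TT/P0`).
-/

set_option autoImplicit false
set_option linter.unusedSectionVars false
set_option linter.unusedVariables false

namespace Fermat.Agent.TT

open Fermat.Agent.FF ModularCurve

/-- (β) for `↥Γ0` with the restricted action gives (β) inside `M`. -/
theorem tttp_noTriv_of_top {G : Type} {M : Type} [AddCommGroup M] (act : G → M → M)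
    (Γ0 : AddSubgroup M) (h : ∀ σ : G, ∀ m ∈ Γ0, act σ m ∈ Γ0)
    (hT : TtNoTriv (ttResAct act Γ0 h) (⊤ : AddSubgroup ↥Γ0)) : TtNoTriv act Γ0 := by
  intro Y Z hZY hY hYst hZst htriv y hy
  have key := hT (Y.comap Γ0.subtype) (Z.comap Γ0.subtype)
    (fun m hm => hZY hm) le_top
    (fun σ m hm => hYst σ m.1 hm) (fun σ m hm => hZst σ m.1 hm)
    (fun σ m hm => htriv σ m.1 hm)
  exact key (show (⟨y, hY hy⟩ : ↥Γ0) ∈ Y.comap Γ0.subtype from hy)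

/-- **(A) + (B) ⟹ (α) + (β)** for `J₀(N)[p^k]`, in `G_ℚ`-action form. -/
theorem tttp_sub_of_geom (N : ℕ) [NeZero N] {p : ℕ} (hp : p.Prime) (hp2 : p ≠ 2) (k : ℕ)
    (𝔸 : ValuationSubring FfQb) (hA : 𝔸.LiesOverPrime p) (hB : TtConnSpec p)
    (hG : TtGeomSpec N p k 𝔸) :
    ∃ Γ0 : AddSubgroup ↥(Submodule.torsionBy ℤ (JZero N) ((p : ℤ) ^ k)),
      (∀ σ ∈ 𝔸.inertiaSubgroupIn ℚ, ∀ m ∈ Γ0, ffTorsAct N ((p : ℤ) ^ k) σ m ∈ Γ0) ∧
      (∀ σ ∈ 𝔸.inertiaSubgroupIn ℚ, ∀ m, ffTorsAct N ((p : ℤ) ^ k) σ m - m ∈ Γ0) ∧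
      ∀ Y Z : AddSubgroup ↥(Submodule.torsionBy ℤ (JZero N) ((p : ℤ) ^ k)), Z ≤ Y → Y ≤ Γ0 →
        (∀ σ ∈ 𝔸.inertiaSubgroupIn ℚ, ∀ y ∈ Y, ffTorsAct N ((p : ℤ) ^ k) σ y ∈ Y) →
        (∀ σ ∈ 𝔸.inertiaSubgroupIn ℚ, ∀ z ∈ Z, ffTorsAct N ((p : ℤ) ^ k) σ z ∈ Z) →
        (∀ σ ∈ 𝔸.inertiaSubgroupIn ℚ, ∀ y ∈ Y, ffTorsAct N ((p : ℤ) ^ k) σ y - y ∈ Z) →
        Y ≤ Z := by
  haveI : Fact p.Prime := ⟨hp⟩
  obtain ⟨Γ0, h, hα, hconn⟩ := hG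
  haveI := fftp_finite N p k
  have hact := fftp_act N ((p : ℤ) ^ k)
  have hβ : TtNoTriv (ttTorsAct 𝔸 N ((p : ℤ) ^ k)) Γ0 := by
    refine tttp_noTriv_of_top _ Γ0 h ?_
    refine hB hp hp2 𝔸 hA ↥Γ0 _ ?_ ?_ ?_ ?_ hconn
    · intro m
      refine ⟨k, Subtype.ext (Subtype.ext ?_)⟩
      have hm := (Submodule.mem_torsionBy_iff _ _).mp m.1.2
      have h2 : ((p ^ k : ℕ) : ℤ) • (m.1 : JZero N) = 0 := by
        rw [Nat.cast_pow]
        exact hm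
      rw [natCast_zsmul] at h2
      simp only [AddSubgroup.coe_nsmul, Submodule.coe_smul_of_tower, h2, AddSubgroup.coe_zero,
        Submodule.coe_zero]
    · intro σ m m'
      exact Subtype.ext (hact.add σ.1 m.1 m'.1)
    · intro σ τ m
      exact Subtype.ext (hact.mul σ.1 τ.1 m.1)
    · intro m
      exact Subtype.ext (hact.one m.1)
  refine ⟨Γ0, fun σ hσ m hm => h ⟨σ, hσ⟩ m hm, fun σ hσ m => hα ⟨σ, hσ⟩ m, ?_⟩
  intro Y Z hZY hY hYst hZst htriv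
  exact hβ Y Z hZY hY (fun σ y hy => hYst σ.1 σ.2 y hy) (fun σ z hz => hZst σ.1 σ.2 z hz)
    (fun σ y hy => htriv σ.1 σ.2 y hy)

end Fermat.Agent.TT
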